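/-
Program B' (S34), package L1-disc, second proof (helper57): the two-extension lemma
`Fermat.Agent.S34.H64.TwoExtStatement` by elementary valuation theory.

No Dedekind domains, no freeness of integral closures, no ramification-index API: for two
distinct valuation subrings `O₁`, `O₂` of `L` over `V` we build an approximation element
`θ` (`θ ∈ π O₁`, `θ - 1 ∈ π O₂`), and the explicit family
`W = {y'^i θ (i < q), 1 - θ}` is a `K`-basis of `L` spanning `O₁ ∩ O₂` over `V`.
Everything (`only`, `integral_iff`, `unif₁`, `unif₂`, `res₁`, and the extra export `res₂`)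
is read off from expansions in `W`.
-/
import Mathlib
import Fermat.Agent.S34.H64.TwoExtDefs

set_option autoImplicit false

namespace Fermat.Agent.S34.H57

open Polynomial

section Basic

variable {L : Type*} [Field L]

/-- A product of an element of a valuation ring with a non-unit is a non-unit. -/
lemma val_mul_lt_one (O : ValuationSubring L) {x y : L} (hx : O.valuation x ≤ 1)
    (hy : O.valuation y < 1) : O.valuation (x * y) < 1 := by
  rw [map_mul]
  calc O.valuation x * O.valuation y ≤ 1 * O.valuation y := by gcongr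
    _ = O.valuation y := one_mul _
    _ < 1 := hy

/-- Moving an element of `O` into a second valuation ring `O'` without changing its class
modulo the maximal ideal of `O` (and only by a unit of `O`). -/
lemma exists_adjust (O O' : ValuationSubring L) {e : L} (he : O.valuation e < 1)
    (he' : O'.valuation e = 1) {g : L} (hg : g ∈ O) :
    ∃ g' u : L, g' = g * u ∧ O.valuation u = 1 ∧ O.valuation (g' - g) < 1 ∧ g' ∈ O' := by
  by_cases hg' : g ∈ O'
  · exact ⟨g, 1, by simp, by simp, by simp, hg'⟩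
  · have hvg : O.valuation g ≤ 1 := (O.valuation_le_one_iff g).2 hg
    have hvg' : 1 < O'.valuation g := by
      rw [← not_le]
      exact fun h => hg' ((O'.valuation_le_one_iff g).1 h)
    have hge : O.valuation (g * e) < 1 := val_mul_lt_one O hvg he
    have h1 : O.valuation (1 + g * e) = 1 := Valuation.map_one_add_of_lt _ hge
    have hne : 1 + g * e ≠ 0 := fun h => by
      rw [h, map_zero] at h1
      exact zero_ne_one h1
    refine ⟨g * (1 + g * e)⁻¹, (1 + g * e)⁻¹, rfl, by rw [map_inv₀, h1, inv_one], ?_, ?_⟩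
    · have e1 : g * (1 + g * e)⁻¹ - g = -(g * ((g * e) * (1 + g * e)⁻¹)) := by
        field_simp
        ring
      rw [e1, Valuation.map_neg]
      refine val_mul_lt_one O hvg ?_
      rw [map_mul, map_inv₀, h1, inv_one, mul_one]
      exact hge
    · rw [← O'.valuation_le_one_iff, map_mul, map_inv₀]
      have h2 : O'.valuation (g * e) = O'.valuation g := by rw [map_mul, he', mul_one]
      have h3 : O'.valuation (1 + g * e) = O'.valuation g := by
        rw [← h2]
        refine Valuation.map_add_eq_of_lt_right _ ?_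
        rw [map_one, h2]
        exact hvg'
      rw [h3]
      exact le_of_eq (mul_inv_cancel₀ (ne_of_gt (lt_trans zero_lt_one hvg')))

end Basic

section Over

variable {K : Type*} {L : Type*} [Field K] [Field L] [Algebra K L]
variable {V : ValuationSubring K}

lemma algebraMap_mem_iff {O : ValuationSubring L} (hO : O.comap (algebraMap K L) = V) (a : K) :
    algebraMap K L a ∈ O ↔ a ∈ V := by
  rw [← hO]
  exact ValuationSubring.mem_comap.symm

lemma algebraMap_val_lt_one_iff {O : ValuationSubring L} (hO : O.comap (algebraMap K L) = V)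
    (a : K) : O.valuation (algebraMap K L a) < 1 ↔ a ∈ V.nonunits := by
  rw [← ValuationSubring.mem_nonunits_iff, ValuationSubring.mem_nonunits_iff_or,
    ValuationSubring.mem_nonunits_iff_or, ← map_inv₀, algebraMap_mem_iff hO, map_eq_zero]

/-- Step (A): a power of a non-unit of `O` has the valuation of an element of `m_V`. -/
lemma exists_pow_val_eq [FiniteDimensional K L] {O : ValuationSubring L}
    (hO : O.comap (algebraMap K L) = V) {g : L} (hg0 : g ≠ 0) (hg : O.valuation g < 1) :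
    ∃ (k : ℕ) (c : K), k ≠ 0 ∧ c ∈ V.nonunits ∧
      O.valuation (g ^ k) = O.valuation (algebraMap K L c) := by
  classical
  obtain ⟨p, hp0, hp⟩ := (Algebra.IsAlgebraic.isAlgebraic (R := K) g)
  set f : ℕ → L := fun i => algebraMap K L (p.coeff i) * g ^ i with hf
  have hsum : ∑ i ∈ p.support, f i = 0 := by
    rw [← hp, aeval_def, eval₂_eq_sum, Polynomial.sum]
  have hne : p.support.Nonempty := Polynomial.support_nonempty.mpr hp0
  have hfv : ∀ i ∈ p.support, O.valuation (f i) ≠ 0 := by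
    intro i hi
    rw [Valuation.ne_zero_iff]
    exact mul_ne_zero ((_root_.map_ne_zero _).2 (Polynomial.mem_support_iff.1 hi)) (pow_ne_zero _ hg0)
  obtain ⟨j, hj, hmax⟩ := Finset.exists_max_image p.support (fun i => O.valuation (f i)) hne
  have hex : ∃ i ∈ p.support, i ≠ j ∧ O.valuation (f i) = O.valuation (f j) := by
    by_contra hcon
    push Not at hcon
    have hlt : ∀ i ∈ p.support \ {j}, O.valuation (f i) < O.valuation (f j) := by
      intro i hi
      rw [Finset.mem_sdiff, Finset.mem_singleton] at hi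
      exact lt_of_le_of_ne (hmax i hi.1) (hcon i hi.1 hi.2)
    have h := Valuation.map_sum_eq_of_lt O.valuation hj hlt
    rw [hsum, map_zero] at h
    exact hfv j hj h.symm
  obtain ⟨i, hi, hij, heq⟩ := hex
  have key : ∀ i j : ℕ, i < j → p.coeff i ≠ 0 → p.coeff j ≠ 0 →
      O.valuation (f i) = O.valuation (f j) →
      ∃ (k : ℕ) (c : K), k ≠ 0 ∧ c ∈ V.nonunits ∧
        O.valuation (g ^ k) = O.valuation (algebraMap K L c) := by
    intro i j hij hi hj h
    have hgi : O.valuation (g ^ i) ≠ 0 := (Valuation.ne_zero_iff _).2 (pow_ne_zero _ hg0)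
    have hcj : O.valuation (algebraMap K L (p.coeff j)) ≠ 0 :=
      (Valuation.ne_zero_iff _).2 ((_root_.map_ne_zero _).2 hj)
    have hpow : g ^ j = g ^ i * g ^ (j - i) := by
      rw [← pow_add]
      congr 1
      omega
    simp only [hf, map_mul] at h
    rw [hpow, map_mul] at h
    have h' : O.valuation (algebraMap K L (p.coeff i)) * O.valuation (g ^ i) =
        (O.valuation (g ^ (j - i)) * O.valuation (algebraMap K L (p.coeff j))) *
          O.valuation (g ^ i) := by
      rw [h]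
      ac_rfl
    have h'' := mul_right_cancel₀ hgi h'
    have hval : O.valuation (g ^ (j - i)) =
        O.valuation (algebraMap K L (p.coeff i / p.coeff j)) := by
      rw [map_div₀, map_div₀, eq_div_iff hcj]
      exact h''.symm
    have hk : j - i ≠ 0 := by omega
    refine ⟨j - i, p.coeff i / p.coeff j, hk, ?_, hval⟩
    rw [← algebraMap_val_lt_one_iff hO, ← hval, map_pow]
    exact pow_lt_one₀ zero_le hg hk
  rcases lt_or_gt_of_ne hij with h | h
  · exact key i j h (Polynomial.mem_support_iff.1 hi) (Polynomial.mem_support_iff.1 hj) heq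
  · exact key j i h (Polynomial.mem_support_iff.1 hj) (Polynomial.mem_support_iff.1 hi) heq.symm

/-- Step (A'): a power of a non-unit of `O` is divisible by the uniformiser of `V`. -/
lemma exists_pow_val_le [FiniteDimensional K L] {O : ValuationSubring L}
    (hO : O.comap (algebraMap K L) = V) {π : K} (hπ0 : π ≠ 0)
    (hπ : ∀ a ∈ V.nonunits, a / π ∈ V) {g : L} (hg : O.valuation g < 1) :
    ∃ k : ℕ, k ≠ 0 ∧ O.valuation (g ^ k) ≤ O.valuation (algebraMap K L π) := by
  rcases eq_or_ne g 0 with rfl | hg0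
  · exact ⟨1, one_ne_zero, by simp⟩
  · obtain ⟨k, c, hk, hc, hkc⟩ := exists_pow_val_eq hO hg0 hg
    refine ⟨k, hk, ?_⟩
    rw [hkc]
    have h1 : O.valuation (algebraMap K L (c / π)) ≤ 1 :=
      (O.valuation_le_one_iff _).2 ((algebraMap_mem_iff hO _).2 (hπ c hc))
    have hpos : 0 < O.valuation (algebraMap K L π) :=
      zero_lt_iff.2 ((Valuation.ne_zero_iff _).2 ((_root_.map_ne_zero _).2 hπ0))
    rw [map_div₀, map_div₀] at h1
    exact (div_le_one₀ hpos).1 h1

/-- Step (B): two distinct valuation rings over `V` are incomparable. -/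
lemma exists_mem_not_mem [FiniteDimensional K L] {O₁ O₂ : ValuationSubring L}
    (h₁ : O₁.comap (algebraMap K L) = V) (h₂ : O₂.comap (algebraMap K L) = V) (hne : O₁ ≠ O₂) :
    ∃ a ∈ O₁, a ∉ O₂ := by
  by_contra hcon
  push Not at hcon
  have hle : O₁ ≤ O₂ := fun a ha => hcon a ha
  obtain ⟨g, hg2, hg1⟩ : ∃ g ∈ O₂, g ∉ O₁ := by
    by_contra h
    push Not at h
    exact hne (le_antisymm hle fun a ha => h a ha)
  have hg0 : g ≠ 0 := fun h => hg1 (h ▸ O₁.zero_mem)
  have hginv : O₁.valuation g⁻¹ < 1 := by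
    rw [← ValuationSubring.mem_nonunits_iff, ValuationSubring.inv_mem_nonunits_iff]
    exact Or.inr hg1
  obtain ⟨k, c, hk, hc, hkc⟩ := exists_pow_val_eq h₁ (inv_ne_zero hg0) hginv
  have hc0 : c ≠ 0 := by
    rintro rfl
    rw [map_zero, map_zero] at hkc
    exact (pow_ne_zero k (inv_ne_zero hg0)) ((Valuation.zero_iff _).1 hkc)
  have hcL : algebraMap K L c ≠ 0 := (_root_.map_ne_zero _).2 hc0
  have hz1 : g⁻¹ ^ k / algebraMap K L c ∈ O₁ := by
    rw [← O₁.valuation_le_one_iff, map_div₀, hkc]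
    exact le_of_eq (div_self ((Valuation.ne_zero_iff _).2 hcL))
  have hz2 : g⁻¹ ^ k / algebraMap K L c ∈ O₂ := hle hz1
  have hinv : (algebraMap K L c)⁻¹ ∈ O₂ := by
    have e : (algebraMap K L c)⁻¹ = g⁻¹ ^ k / algebraMap K L c * g ^ k := by
      rw [div_mul_eq_mul_div, inv_pow, inv_mul_cancel₀ (pow_ne_zero k hg0), one_div]
    rw [e]
    exact O₂.mul_mem _ _ hz2 (pow_mem hg2 k)
  have hcn : algebraMap K L c ∈ O₂.nonunits := by
    rw [ValuationSubring.mem_nonunits_iff]
    exact (algebraMap_val_lt_one_iff h₂ c).2 hc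
  rw [ValuationSubring.mem_nonunits_iff_or] at hcn
  rcases hcn with h | h
  · exact hcL h
  · exact h hinv

/-- Step (C): the approximation element. -/
lemma exists_theta [FiniteDimensional K L] {O₁ O₂ : ValuationSubring L}
    (h₁ : O₁.comap (algebraMap K L) = V) (h₂ : O₂.comap (algebraMap K L) = V) (hne : O₁ ≠ O₂)
    {π : K} (hπ0 : π ≠ 0) (hπV : π ∈ V.nonunits) (hπ : ∀ a ∈ V.nonunits, a / π ∈ V) :
    ∃ θ : L, O₁.valuation θ ≤ O₁.valuation (algebraMap K L π) ∧
      O₂.valuation (θ - 1) ≤ O₂.valuation (algebraMap K L π) := by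
  obtain ⟨a, ha1, ha2⟩ := exists_mem_not_mem h₁ h₂ hne
  obtain ⟨b, hb2, hb1⟩ := exists_mem_not_mem h₂ h₁ hne.symm
  have ha0 : a ≠ 0 := fun h => ha2 (h ▸ O₂.zero_mem)
  have hb0 : b ≠ 0 := fun h => hb1 (h ▸ O₁.zero_mem)
  have hbinv : O₁.valuation b⁻¹ < 1 := by
    rw [← ValuationSubring.mem_nonunits_iff, ValuationSubring.inv_mem_nonunits_iff]
    exact Or.inr hb1
  have hainv : O₂.valuation a⁻¹ < 1 := by
    rw [← ValuationSubring.mem_nonunits_iff, ValuationSubring.inv_mem_nonunits_iff]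
    exact Or.inr ha2
  obtain ⟨k, hk, hkb⟩ := exists_pow_val_le h₁ hπ0 hπ hbinv
  obtain ⟨l, hl, hla⟩ := exists_pow_val_le h₂ hπ0 hπ hainv
  have hP1 : O₁.valuation (algebraMap K L π) < 1 := (algebraMap_val_lt_one_iff h₁ π).2 hπV
  have hP2 : O₂.valuation (algebraMap K L π) < 1 := (algebraMap_val_lt_one_iff h₂ π).2 hπV
  set t : L := a ^ l * b⁻¹ ^ k with ht
  have ht0 : t ≠ 0 := mul_ne_zero (pow_ne_zero _ ha0) (pow_ne_zero _ (inv_ne_zero hb0))
  have ht1 : O₁.valuation t ≤ O₁.valuation (algebraMap K L π) := by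
    rw [ht, map_mul]
    calc O₁.valuation (a ^ l) * O₁.valuation (b⁻¹ ^ k)
        ≤ 1 * O₁.valuation (algebraMap K L π) :=
          mul_le_mul' ((O₁.valuation_le_one_iff _).2 (pow_mem ha1 l)) hkb
      _ = _ := one_mul _
  have ht2 : O₂.valuation t⁻¹ ≤ O₂.valuation (algebraMap K L π) := by
    have e : t⁻¹ = b ^ k * a⁻¹ ^ l := by
      rw [ht, mul_inv, inv_pow b, inv_inv, inv_pow a, mul_comm]
    rw [e, map_mul]
    calc O₂.valuation (b ^ k) * O₂.valuation (a⁻¹ ^ l)
        ≤ 1 * O₂.valuation (algebraMap K L π) :=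
          mul_le_mul' ((O₂.valuation_le_one_iff _).2 (pow_mem hb2 k)) hla
      _ = _ := one_mul _
  have h1t : O₁.valuation (1 + t) = 1 :=
    Valuation.map_one_add_of_lt _ (lt_of_le_of_lt ht1 hP1)
  have h1t0 : 1 + t ≠ 0 := fun h => by
    rw [h, map_zero] at h1t
    exact zero_ne_one h1t
  have h1t' : O₂.valuation (1 + t⁻¹) = 1 :=
    Valuation.map_one_add_of_lt _ (lt_of_le_of_lt ht2 hP2)
  refine ⟨t * (1 + t)⁻¹, ?_, ?_⟩
  · rw [map_mul, map_inv₀, h1t, inv_one, mul_one]
    exact ht1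
  · have e1 : 1 + t = t * (1 + t⁻¹) := by
      rw [mul_add, mul_one, mul_inv_cancel₀ ht0, add_comm]
    have e2 : t * (1 + t)⁻¹ - 1 = -(1 + t)⁻¹ := by
      calc t * (1 + t)⁻¹ - 1 = (1 + t) * (1 + t)⁻¹ - (1 + t)⁻¹ - 1 := by ring
        _ = 1 - (1 + t)⁻¹ - 1 := by rw [mul_inv_cancel₀ h1t0]
        _ = -(1 + t)⁻¹ := by ring
    have e3 : O₂.valuation (1 + t) = O₂.valuation t := by
      rw [e1, map_mul, h1t', mul_one]
    rw [e2, Valuation.map_neg, map_inv₀, e3, ← map_inv₀]
    exact ht2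

end Over

section ResidueIndep

variable {K : Type*} {L : Type*} [Field K] [Field L] [Algebra K L]
variable {V : ValuationSubring K}

/-- The inclusion `V → O` for a valuation ring `O` of `L` over `V`. -/
noncomputable def incl {O : ValuationSubring L} (hO : O.comap (algebraMap K L) = V) : V →+* O :=
  ((algebraMap K L).comp V.subtype).codRestrict O (fun a => (algebraMap_mem_iff hO _).2 a.2)

lemma coe_incl {O : ValuationSubring L} (hO : O.comap (algebraMap K L) = V) (a : V) :
    ((incl hO a : O) : L) = algebraMap K L (a : K) := rfl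

/-- Step (Y): the powers `1, y, …, y^(q-1)` are independent modulo the maximal ideal of `O`
over the residue field of `V`. -/
lemma coeff_mem_nonunits_of_sum_mem {O : ValuationSubring L}
    (hO : O.comap (algebraMap K L) = V) {q : ℕ} (hq : q.Prime) (hqV : (q : K) ∈ V.nonunits)
    {y : L} (hy : y ∈ O) {v : K} (hv : v ∈ V) (hyv : y ^ q - algebraMap K L v ∈ O.nonunits)
    (hyn : ∀ w ∈ V, y - algebraMap K L w ∉ O.nonunits)
    (c : Fin q → K) (hc : ∀ i, c i ∈ V)
    (hs : ∑ i : Fin q, algebraMap K L (c i) * y ^ (i : ℕ) ∈ O.nonunits) :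
    ∀ i, c i ∈ V.nonunits := by
  classical
  have : Fact q.Prime := ⟨hq⟩
  set ρ : V →+* IsLocalRing.ResidueField O := (IsLocalRing.residue O).comp (incl hO) with hρ
  have hρ0 : ∀ a : V, (a : K) ∈ V.nonunits → ρ a = 0 := by
    intro a ha
    rw [hρ, RingHom.comp_apply, IsLocalRing.residue_eq_zero_iff,
      ← ValuationSubring.coe_mem_nonunits_iff, coe_incl, ValuationSubring.mem_nonunits_iff]
    exact (algebraMap_val_lt_one_iff hO _).2 ha
  have : IsLocalHom ρ := ⟨fun a ha => by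
    by_contra hna
    have hm : a ∈ IsLocalRing.maximalIdeal V := (IsLocalRing.mem_maximalIdeal a).2 hna
    rw [hρ0 a (ValuationSubring.coe_mem_nonunits_iff.2 hm)] at ha
    exact not_isUnit_zero ha⟩
  set j : IsLocalRing.ResidueField V →+* IsLocalRing.ResidueField O :=
    IsLocalRing.ResidueField.lift ρ with hj
  have hjr : ∀ a : V, j (IsLocalRing.residue V a) = ρ a := fun a =>
    IsLocalRing.ResidueField.lift_residue_apply ρ a
  set Y : O := ⟨y, hy⟩ with hY
  set yb : IsLocalRing.ResidueField O := IsLocalRing.residue O Y with hyb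
  set vb : IsLocalRing.ResidueField V := IsLocalRing.residue V ⟨v, hv⟩ with hvb
  have h1 : yb ^ q = j vb := by
    rw [hvb, hjr, hρ, RingHom.comp_apply, hyb, ← map_pow, ← sub_eq_zero, ← map_sub,
      IsLocalRing.residue_eq_zero_iff, ← ValuationSubring.coe_mem_nonunits_iff]
    exact hyv
  have hchar : CharP (IsLocalRing.ResidueField O) q := by
    refine (CharP.charP_iff_prime_eq_zero hq).2 ?_
    have h := hρ0 ⟨(q : K), (V.nonunits_subset hqV)⟩ hqV
    have e : (⟨(q : K), V.nonunits_subset hqV⟩ : V) = ((q : ℕ) : V) := by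
      apply Subtype.ext
      simp
    rw [e, map_natCast] at h
    exact h
  have h2 : ∀ b : IsLocalRing.ResidueField V, j b ≠ yb := by
    intro b hb
    obtain ⟨b, rfl⟩ := IsLocalRing.residue_surjective b
    rw [hjr, hρ, RingHom.comp_apply, hyb] at hb
    have hm : Y - incl hO b ∈ IsLocalRing.maximalIdeal O := by
      rw [← IsLocalRing.residue_eq_zero_iff, map_sub, sub_eq_zero]
      exact hb.symm
    exact hyn b b.2 (ValuationSubring.coe_mem_nonunits_iff.2 hm)
  have h3 : ∀ b : IsLocalRing.ResidueField V, b ^ q ≠ vb := by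
    intro b hb
    apply h2 b
    have h0 : (yb - j b) ^ q = 0 := by
      rw [sub_pow_char, h1, ← map_pow, hb, sub_self]
    exact (sub_eq_zero.1 ((pow_eq_zero_iff hq.ne_zero).1 h0)).symm
  have hirr : Irreducible (X ^ q - C vb : (IsLocalRing.ResidueField V)[X]) :=
    X_pow_sub_C_irreducible_of_prime hq h3
  set P : (IsLocalRing.ResidueField V)[X] :=
    ∑ i : Fin q, C (IsLocalRing.residue V ⟨c i, hc i⟩) * X ^ (i : ℕ) with hP
  have hdeg : P.degree < q := Polynomial.degree_sum_fin_lt _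
  have hev : P.eval₂ j yb = 0 := by
    have e : P.eval₂ j yb =
        IsLocalRing.residue O (∑ i : Fin q, incl hO ⟨c i, hc i⟩ * Y ^ (i : ℕ)) := by
      rw [hP, eval₂_finsetSum, map_sum]
      refine Finset.sum_congr rfl fun i _ => ?_
      rw [eval₂_mul, eval₂_C, eval₂_X_pow, hjr, hρ, RingHom.comp_apply, map_mul, map_pow]
    rw [e, IsLocalRing.residue_eq_zero_iff, ← ValuationSubring.coe_mem_nonunits_iff]
    have e2 : ((∑ i : Fin q, incl hO ⟨c i, hc i⟩ * Y ^ (i : ℕ) : O) : L) =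
        ∑ i : Fin q, algebraMap K L (c i) * y ^ (i : ℕ) := by
      push_cast
      rfl
    rw [e2]
    exact hs
  have hP0 : P = 0 := by
    by_contra hPne
    have hndvd : ¬ (X ^ q - C vb) ∣ P := by
      intro hd
      have h := Polynomial.degree_le_of_dvd hd hPne
      rw [degree_X_pow_sub_C hq.pos] at h
      exact absurd (lt_of_le_of_lt h hdeg) (lt_irrefl _)
    obtain ⟨A, B, hAB⟩ := (hirr.coprime_iff_not_dvd).2 hndvd
    have h := congrArg (eval₂ j yb) hAB
    simp only [eval₂_add, eval₂_mul, eval₂_sub, eval₂_X_pow, eval₂_C, eval₂_one, hev, h1,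
      sub_self, mul_zero, add_zero] at h
    exact zero_ne_one h
  intro i
  have hci : P.coeff i = IsLocalRing.residue V ⟨c i, hc i⟩ := by
    rw [hP, finsetSum_coeff]
    simp only [coeff_C_mul_X_pow]
    rw [Finset.sum_eq_single i]
    · simp
    · intro b _ hb
      rw [if_neg]
      exact fun h => hb (Fin.ext h.symm)
    · intro h
      exact absurd (Finset.mem_univ i) h
  rw [hP0, coeff_zero] at hci
  exact (ValuationSubring.coe_mem_nonunits_iff (a := (⟨c i, hc i⟩ : V))).2
    ((IsLocalRing.residue_eq_zero_iff _).1 hci.symm)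

end ResidueIndep

section Core

variable {K : Type*} {L : Type*} [Field K] [Field L] [Algebra K L]
variable {V : ValuationSubring K}

lemma val_pow_sub_pow_lt_one (O : ValuationSubring L) {a b : L} (ha : a ∈ O) (hb : b ∈ O)
    (hab : O.valuation (a - b) < 1) (n : ℕ) : O.valuation (a ^ n - b ^ n) < 1 := by
  induction n with
  | zero => simp
  | succ n ih =>
    have e : a ^ (n + 1) - b ^ (n + 1) = a ^ n * (a - b) + b * (a ^ n - b ^ n) := by ring
    rw [e]
    exact Valuation.map_add_lt _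
      (val_mul_lt_one O ((O.valuation_le_one_iff _).2 (pow_mem ha n)) hab)
      (val_mul_lt_one O ((O.valuation_le_one_iff _).2 hb) ih)

/-- The element of `L` with coordinates `(c, d)` in the family `W = {y'^i θ, 1 - θ}`. -/
noncomputable def comb (θ y' : L) {q : ℕ} (c : Fin q → K) (d : K) : L :=
  (∑ i : Fin q, algebraMap K L (c i) * y' ^ (i : ℕ)) * θ + algebraMap K L d * (1 - θ)

lemma sum_mem_of_coeff {O : ValuationSubring L} (hO : O.comap (algebraMap K L) = V)
    {y' : L} (hy' : y' ∈ O) {q : ℕ} (c : Fin q → K) (hc : ∀ i, c i ∈ V) :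
    ∑ i : Fin q, algebraMap K L (c i) * y' ^ (i : ℕ) ∈ O :=
  sum_mem fun i _ => O.mul_mem _ _ ((algebraMap_mem_iff hO _).2 (hc i)) (pow_mem hy' _)

/-- (E1a) reduction of a combination modulo the maximal ideal of `O₂`. -/
lemma val_comb_sub_lt_one {O₂ : ValuationSubring L} (h₂ : O₂.comap (algebraMap K L) = V)
    {θ y' y : L} (hθ2 : O₂.valuation (θ - 1) < 1) (hy'2 : y' ∈ O₂) (hy : y ∈ O₂)
    (hyy : O₂.valuation (y' - y) < 1) {q : ℕ} (c : Fin q → K) (hc : ∀ i, c i ∈ V) {d : K}
    (hd : d ∈ V) :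
    O₂.valuation (comb θ y' c d - ∑ i : Fin q, algebraMap K L (c i) * y ^ (i : ℕ)) < 1 := by
  have e : comb θ y' c d - ∑ i : Fin q, algebraMap K L (c i) * y ^ (i : ℕ) =
      (∑ i : Fin q, algebraMap K L (c i) * y' ^ (i : ℕ)) * (θ - 1) +
        (∑ i : Fin q, algebraMap K L (c i) * (y' ^ (i : ℕ) - y ^ (i : ℕ)) +
          algebraMap K L d * (1 - θ)) := by
    simp only [comb, mul_sub, Finset.sum_sub_distrib]
    ring
  rw [e]
  refine Valuation.map_add_lt _ ?_ (Valuation.map_add_lt _ ?_ ?_)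
  · exact val_mul_lt_one O₂ ((O₂.valuation_le_one_iff _).2 (sum_mem_of_coeff h₂ hy'2 c hc)) hθ2
  · refine Valuation.map_sum_lt _ one_ne_zero fun i _ => ?_
    exact val_mul_lt_one O₂ ((O₂.valuation_le_one_iff _).2 ((algebraMap_mem_iff h₂ _).2 (hc i)))
      (val_pow_sub_pow_lt_one O₂ hy'2 hy hyy _)
  · refine val_mul_lt_one O₂ ((O₂.valuation_le_one_iff _).2 ((algebraMap_mem_iff h₂ _).2 hd)) ?_
    rw [Valuation.map_sub_swap]
    exact hθ2

/-- (E1b) reduction of a combination modulo `θ` in `O₁`. -/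
lemma val_comb_sub_le {O₁ : ValuationSubring L} (h₁ : O₁.comap (algebraMap K L) = V)
    {θ y' : L} (hy'1 : y' ∈ O₁) {q : ℕ} (c : Fin q → K) (hc : ∀ i, c i ∈ V) {d : K}
    (hd : d ∈ V) :
    O₁.valuation (comb θ y' c d - algebraMap K L d) ≤ O₁.valuation θ := by
  have e : comb θ y' c d - algebraMap K L d =
      (∑ i : Fin q, algebraMap K L (c i) * y' ^ (i : ℕ) - algebraMap K L d) * θ := by
    simp only [comb]
    ring
  rw [e, map_mul]
  have hmem : ∑ i : Fin q, algebraMap K L (c i) * y' ^ (i : ℕ) - algebraMap K L d ∈ O₁ :=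
    sub_mem (sum_mem_of_coeff h₁ hy'1 c hc) ((algebraMap_mem_iff h₁ _).2 hd)
  calc O₁.valuation _ * O₁.valuation θ ≤ 1 * O₁.valuation θ :=
        mul_le_mul' ((O₁.valuation_le_one_iff _).2 hmem) le_rfl
    _ = _ := one_mul _

/-- (E1') independence of the family `W` modulo the maximal ideals. -/
lemma coeff_mem_nonunits_of_comb {O₁ O₂ : ValuationSubring L}
    (h₁ : O₁.comap (algebraMap K L) = V) (h₂ : O₂.comap (algebraMap K L) = V)
    {q : ℕ} (hq : q.Prime) (hqV : (q : K) ∈ V.nonunits)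
    {y : L} (hy : y ∈ O₂) {v : K} (hv : v ∈ V) (hyv : y ^ q - algebraMap K L v ∈ O₂.nonunits)
    (hyn : ∀ w ∈ V, y - algebraMap K L w ∉ O₂.nonunits)
    {θ y' : L} (hθ1 : O₁.valuation θ < 1) (hθ2 : O₂.valuation (θ - 1) < 1)
    (hy'1 : y' ∈ O₁) (hy'2 : y' ∈ O₂) (hyy : O₂.valuation (y' - y) < 1)
    (c : Fin q → K) (hc : ∀ i, c i ∈ V) {d : K} (hd : d ∈ V)
    (hx1 : O₁.valuation (comb θ y' c d) < 1) (hx2 : O₂.valuation (comb θ y' c d) < 1) :
    (∀ i, c i ∈ V.nonunits) ∧ d ∈ V.nonunits := by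
  constructor
  · refine coeff_mem_nonunits_of_sum_mem h₂ hq hqV hy hv hyv hyn c hc ?_
    rw [ValuationSubring.mem_nonunits_iff]
    have e : ∑ i : Fin q, algebraMap K L (c i) * y ^ (i : ℕ) =
        comb θ y' c d - (comb θ y' c d - ∑ i : Fin q, algebraMap K L (c i) * y ^ (i : ℕ)) := by
      ring
    rw [e]
    exact Valuation.map_sub_lt _ hx2 (val_comb_sub_lt_one h₂ hθ2 hy'2 hy hyy c hc hd)
  · rw [← algebraMap_val_lt_one_iff h₁]
    have e : algebraMap K L d = comb θ y' c d - (comb θ y' c d - algebraMap K L d) := by ring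
    rw [e]
    exact Valuation.map_sub_lt _ hx1 (lt_of_le_of_lt (val_comb_sub_le h₁ hy'1 c hc hd) hθ1)

/-- Scaling a finite family of elements of `K`, not all in `V` (resp. not all zero), into `V`
with one coordinate equal to `1`. -/
lemma exists_scale {ι : Type*} [Fintype ι] (a : ι → K) {i₁ : ι} (h : a i₁ ≠ 0) :
    ∃ (s : K) (i₀ : ι), s ≠ 0 ∧ (∀ i, s * a i ∈ V) ∧ s * a i₀ = 1 ∧ (a i₁ ∉ V → s ∈ V.nonunits) := by
  classical
  obtain ⟨i₀, -, hmax⟩ := Finset.exists_max_image Finset.univ (fun i => V.valuation (a i))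
    ⟨i₁, Finset.mem_univ _⟩
  have h1 : V.valuation (a i₁) ≠ 0 := (Valuation.ne_zero_iff _).2 h
  have hpos : 0 < V.valuation (a i₀) :=
    lt_of_lt_of_le (zero_lt_iff.2 h1) (hmax i₁ (Finset.mem_univ _))
  have h0 : a i₀ ≠ 0 := (Valuation.ne_zero_iff _).1 (ne_of_gt hpos)
  refine ⟨(a i₀)⁻¹, i₀, inv_ne_zero h0, fun i => ?_, inv_mul_cancel₀ h0, fun hnot => ?_⟩
  · rw [← V.valuation_le_one_iff, map_mul, map_inv₀]
    exact (inv_mul_le_one₀ hpos).2 (hmax i (Finset.mem_univ _))
  · rw [ValuationSubring.mem_nonunits_iff, map_inv₀]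
    have h2 : 1 < V.valuation (a i₁) := by
      rw [← not_le]
      exact fun hle => hnot ((V.valuation_le_one_iff _).1 hle)
    exact inv_lt_one_of_one_lt₀ (lt_of_lt_of_le h2 (hmax i₁ (Finset.mem_univ _)))

end Core

section Main

variable {K : Type*} {L : Type*} [Field K] [Field L] [Algebra K L]
variable {V : ValuationSubring K}

/-- The family `W = {y'^i θ (i < q), 1 - θ}`, indexed by `Option (Fin q)`. -/
noncomputable def fam (θ y' : L) (q : ℕ) : Option (Fin q) → L :=
  fun o => o.elim (1 - θ) (fun i => y' ^ (i : ℕ) * θ)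

lemma sum_smul_fam (θ y' : L) {q : ℕ} (a : Option (Fin q) → K) :
    ∑ o, a o • fam θ y' q o = comb θ y' (fun i => a (some i)) (a none) := by
  rw [Fintype.sum_option]
  simp only [fam, Option.elim, comb, Algebra.smul_def, Finset.sum_mul]
  rw [add_comm]
  congr 1
  exact Finset.sum_congr rfl fun i _ => (mul_assoc _ _ _).symm

/-- **The core**: an approximation element `θ`, a representative `y'` of `y` in `O₁ ∩ O₂`, and
the expansion of every element of `O₁ ∩ O₂` in the family `W` with coefficients in `V`. -/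
theorem exists_core [FiniteDimensional K L] {O₁ O₂ : ValuationSubring L}
    (h₁ : O₁.comap (algebraMap K L) = V) (h₂ : O₂.comap (algebraMap K L) = V) (hne : O₁ ≠ O₂)
    {π : K} (hπ0 : π ≠ 0) (hπV : π ∈ V.nonunits) (hπ : ∀ a ∈ V.nonunits, a / π ∈ V)
    {q : ℕ} (hq : q.Prime) (hqV : (q : K) ∈ V.nonunits) (hfin : Module.finrank K L = q + 1)
    {y : L} (hy : y ∈ O₂) {v : K} (hv : v ∈ V) (hyv : y ^ q - algebraMap K L v ∈ O₂.nonunits)
    (hyn : ∀ w ∈ V, y - algebraMap K L w ∉ O₂.nonunits) :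
    ∃ θ y' : L,
      O₁.valuation θ ≤ O₁.valuation (algebraMap K L π) ∧
      O₂.valuation (θ - 1) ≤ O₂.valuation (algebraMap K L π) ∧
      y' ∈ O₁ ∧ y' ∈ O₂ ∧ O₂.valuation (y' - y) < 1 ∧
      ∀ x : L, x ∈ O₁ → x ∈ O₂ →
        ∃ (c : Fin q → K) (d : K), (∀ i, c i ∈ V) ∧ d ∈ V ∧ x = comb θ y' c d := by
  classical
  obtain ⟨θ, hθ1, hθ2⟩ := exists_theta h₁ h₂ hne hπ0 hπV hπ
  have hP1 : O₁.valuation (algebraMap K L π) < 1 := (algebraMap_val_lt_one_iff h₁ π).2 hπV
  have hP2 : O₂.valuation (algebraMap K L π) < 1 := (algebraMap_val_lt_one_iff h₂ π).2 hπV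
  have hθ1' : O₁.valuation θ < 1 := lt_of_le_of_lt hθ1 hP1
  have hθ2' : O₂.valuation (θ - 1) < 1 := lt_of_le_of_lt hθ2 hP2
  have he2 : O₂.valuation (1 - θ) < 1 := by
    rw [Valuation.map_sub_swap]
    exact hθ2'
  have he1 : O₁.valuation (1 - θ) = 1 := Valuation.map_one_sub_of_lt _ hθ1'
  obtain ⟨y', u, hy'u, hu, hyy, hy'1⟩ := exists_adjust O₂ O₁ he2 he1 hy
  have hy'2 : y' ∈ O₂ := by
    rw [hy'u]
    exact O₂.mul_mem _ _ hy ((O₂.valuation_le_one_iff _).1 (le_of_eq hu))
  refine ⟨θ, y', hθ1, hθ2, hy'1, hy'2, hyy, ?_⟩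
  have key : ∀ a : Option (Fin q) → K, (∀ o, a o ∈ V) →
      O₁.valuation (∑ o, a o • fam θ y' q o) < 1 →
      O₂.valuation (∑ o, a o • fam θ y' q o) < 1 → ∀ o, a o ∈ V.nonunits := by
    intro a ha hx1 hx2
    rw [sum_smul_fam] at hx1 hx2
    obtain ⟨hc, hd⟩ := coeff_mem_nonunits_of_comb h₁ h₂ hq hqV hy hv hyv hyn hθ1' hθ2' hy'1
      hy'2 hyy (fun i => a (some i)) (fun i => ha _) (ha none) hx1 hx2
    intro o
    cases o with
    | none => exact hd
    | some i => exact hc i
  have hone : (1 : K) ∉ V.nonunits := by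
    rw [ValuationSubring.mem_nonunits_iff, map_one]
    exact lt_irrefl _
  have hli : LinearIndependent K (fam θ y' q) := by
    rw [Fintype.linearIndependent_iff]
    intro g hg o₁
    by_contra hne0
    obtain ⟨s, i₀, hs0, hsV, hs1, -⟩ := exists_scale (V := V) g hne0
    have hsum : ∑ o, (s * g o) • fam θ y' q o = 0 := by
      simp only [mul_smul]
      rw [← Finset.smul_sum, hg, smul_zero]
    have h := key (fun o => s * g o) hsV (by rw [hsum, map_zero]; exact zero_lt_one)
      (by rw [hsum, map_zero]; exact zero_lt_one) i₀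
    simp only [hs1] at h
    exact hone h
  have hcard : Fintype.card (Option (Fin q)) = Module.finrank K L := by
    rw [Fintype.card_option, Fintype.card_fin, hfin]
  let b := basisOfLinearIndependentOfCardEqFinrank hli hcard
  have hb : ⇑b = fam θ y' q := coe_basisOfLinearIndependentOfCardEqFinrank hli hcard
  intro x hx1 hx2
  have hx : x = ∑ o, b.repr x o • fam θ y' q o := by
    conv_lhs => rw [← b.sum_repr x]
    rw [hb]
  have hall : ∀ o, b.repr x o ∈ V := by
    intro o₁
    by_contra hnot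
    have hne0 : b.repr x o₁ ≠ 0 := fun h => hnot (h ▸ V.zero_mem)
    obtain ⟨s, i₀, hs0, hsV, hs1, hsn⟩ := exists_scale (V := V) (fun o => b.repr x o) hne0
    have hs := hsn hnot
    have hsum : ∑ o, (s * b.repr x o) • fam θ y' q o = x * algebraMap K L s := by
      simp only [mul_smul]
      rw [← Finset.smul_sum, ← hx, Algebra.smul_def, mul_comm]
    have hsL1 : O₁.valuation (algebraMap K L s) < 1 := (algebraMap_val_lt_one_iff h₁ s).2 hs
    have hsL2 : O₂.valuation (algebraMap K L s) < 1 := (algebraMap_val_lt_one_iff h₂ s).2 hs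
    have h := key (fun o => s * b.repr x o) hsV
      (by rw [hsum]; exact val_mul_lt_one O₁ ((O₁.valuation_le_one_iff _).2 hx1) hsL1)
      (by rw [hsum]; exact val_mul_lt_one O₂ ((O₂.valuation_le_one_iff _).2 hx2) hsL2) i₀
    simp only [hs1] at h
    exact hone h
  refine ⟨fun i => b.repr x (some i), b.repr x none, fun i => hall _, hall _, ?_⟩
  rw [← sum_smul_fam]
  exact hx

end Main

universe u v

section Final

variable {K : Type u} {L : Type v} [Field K] [Field L] [Algebra K L]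

/-- A uniformiser of a discrete valuation subring, as an element of the field. -/
lemma exists_uniformizer (V : ValuationSubring K) [IsDiscreteValuationRing V] :
    ∃ π : K, π ≠ 0 ∧ π ∈ V.nonunits ∧ ∀ a ∈ V.nonunits, a / π ∈ V := by
  obtain ⟨ϖ, hϖ⟩ := IsDiscreteValuationRing.exists_irreducible V
  have h0 : (ϖ : K) ≠ 0 := fun h => hϖ.ne_zero (Subtype.ext h)
  refine ⟨(ϖ : K), h0, ?_, ?_⟩
  · rw [ValuationSubring.coe_mem_nonunits_iff]
    exact (IsLocalRing.mem_maximalIdeal _).2 hϖ.not_isUnit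
  · intro a ha
    have haV : a ∈ V := V.nonunits_subset ha
    have hm : (⟨a, haV⟩ : V) ∈ IsLocalRing.maximalIdeal V :=
      ValuationSubring.coe_mem_nonunits_iff.1 ha
    rw [(IsDiscreteValuationRing.irreducible_iff_uniformizer ϖ).1 hϖ,
      Ideal.mem_span_singleton'] at hm
    obtain ⟨b, hb⟩ := hm
    have e : a = (b : K) * (ϖ : K) := congrArg Subtype.val hb.symm
    rw [e, mul_div_assoc, div_self h0, mul_one]
    exact b.2

/-- Integral elements over `V` lie in every valuation ring over `V`. -/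
lemma mem_of_isIntegral {V : ValuationSubring K} {O : ValuationSubring L}
    (hO : O.comap (algebraMap K L) = V) {g : L} (hg : IsIntegral V g) : g ∈ O := by
  obtain ⟨p, hp, hpg⟩ := hg
  have hint : IsIntegral O g := by
    refine ⟨p.map (incl hO), hp.map _, ?_⟩
    rw [eval₂_map]
    have e : (algebraMap O L).comp (incl hO) = algebraMap V L := RingHom.ext fun a => rfl
    rw [e]
    exact hpg
  obtain ⟨z, hz⟩ := (IsIntegrallyClosed.isIntegral_iff (R := O) (K := L)).1 hint
  rw [← hz]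
  exact z.2

/-- All elementwise conclusions for a fixed uniformiser `π` of `V`. -/
theorem twoExt_of_uniformizer [FiniteDimensional K L] {V : ValuationSubring K} {q : ℕ}
    (hq : q.Prime) (hqV : (q : K) ∈ V.nonunits) (hfin : Module.finrank K L = q + 1)
    {O₁ O₂ : ValuationSubring L} (h₁ : O₁.comap (algebraMap K L) = V)
    (h₂ : O₂.comap (algebraMap K L) = V) (hne : O₁ ≠ O₂) {y : L} (hy : y ∈ O₂) {v : K}
    (hv : v ∈ V) (hyv : y ^ q - algebraMap K L v ∈ O₂.nonunits)
    (hyn : ∀ w ∈ V, y - algebraMap K L w ∉ O₂.nonunits)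
    {π : K} (hπ0 : π ≠ 0) (hπV : π ∈ V.nonunits) (hπ : ∀ a ∈ V.nonunits, a / π ∈ V) :
    (∀ g : L, g ∈ O₁ → g ∈ O₂ → IsIntegral V g) ∧
    (∀ g ∈ O₁.nonunits, g / algebraMap K L π ∈ O₁) ∧
    (∀ g ∈ O₂.nonunits, g / algebraMap K L π ∈ O₂) ∧
    (∀ g ∈ O₁, ∃ w ∈ V, g - algebraMap K L w ∈ O₁.nonunits) ∧
    (∀ g ∈ O₂, ∃ c : Fin q → K, (∀ i, c i ∈ V) ∧
      g - ∑ i, algebraMap K L (c i) * y ^ (i : ℕ) ∈ O₂.nonunits) := by
  classical
  obtain ⟨θ, y', hθ1, hθ2, hy'1, hy'2, hyy, hexp⟩ :=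
    exists_core h₁ h₂ hne hπ0 hπV hπ hq hqV hfin hy hv hyv hyn
  have hPL0 : algebraMap K L π ≠ 0 := (_root_.map_ne_zero _).2 hπ0
  have hP1 : O₁.valuation (algebraMap K L π) < 1 := (algebraMap_val_lt_one_iff h₁ π).2 hπV
  have hP2 : O₂.valuation (algebraMap K L π) < 1 := (algebraMap_val_lt_one_iff h₂ π).2 hπV
  have hpos1 : 0 < O₁.valuation (algebraMap K L π) :=
    zero_lt_iff.2 ((Valuation.ne_zero_iff _).2 hPL0)
  have hpos2 : 0 < O₂.valuation (algebraMap K L π) :=
    zero_lt_iff.2 ((Valuation.ne_zero_iff _).2 hPL0)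
  have hθ1' : O₁.valuation θ < 1 := lt_of_le_of_lt hθ1 hP1
  have hθ2' : O₂.valuation (θ - 1) < 1 := lt_of_le_of_lt hθ2 hP2
  have he2 : O₂.valuation (1 - θ) < 1 := by
    rw [Valuation.map_sub_swap]
    exact hθ2'
  have he1 : O₁.valuation (1 - θ) = 1 := Valuation.map_one_sub_of_lt _ hθ1'
  have hθ2u : O₂.valuation θ = 1 := by
    have e : θ = 1 + (θ - 1) := by ring
    rw [e]
    exact Valuation.map_one_add_of_lt _ hθ2'
  have hθO1 : θ ∈ O₁ := (O₁.valuation_le_one_iff _).1 (le_of_lt hθ1')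
  have hθO2 : θ ∈ O₂ := (O₂.valuation_le_one_iff _).1 (le_of_eq hθ2u)
  have hdivV : ∀ a : K, a ∈ V.nonunits → ∀ (O : ValuationSubring L),
      O.comap (algebraMap K L) = V → O.valuation (algebraMap K L a) ≤
        O.valuation (algebraMap K L π) := by
    intro a ha O hO
    have h1 : O.valuation (algebraMap K L (a / π)) ≤ 1 :=
      (O.valuation_le_one_iff _).2 ((algebraMap_mem_iff hO _).2 (hπ a ha))
    have hpos : 0 < O.valuation (algebraMap K L π) :=
      zero_lt_iff.2 ((Valuation.ne_zero_iff _).2 hPL0)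
    rw [map_div₀, map_div₀] at h1
    exact (div_le_one₀ hpos).1 h1
  refine ⟨?_, ?_, ?_, ?_, ?_⟩
  · -- integrality of `O₁ ∩ O₂`
    intro g hg1 hg2
    let S : Subalgebra V L :=
      { (O₁.toSubring ⊓ O₂.toSubring).toSubsemiring with
        algebraMap_mem' := fun a =>
          ⟨(algebraMap_mem_iff h₁ _).2 a.2, (algebraMap_mem_iff h₂ _).2 a.2⟩ }
    have hfam : ∀ o, fam θ y' q o ∈ S := by
      intro o
      cases o with
      | none =>
        exact ⟨sub_mem O₁.one_mem hθO1, sub_mem O₂.one_mem hθO2⟩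
      | some i =>
        exact ⟨O₁.mul_mem _ _ (pow_mem hy'1 _) hθO1, O₂.mul_mem _ _ (pow_mem hy'2 _) hθO2⟩
    have hFG : S.toSubmodule.FG := by
      refine ⟨Finset.univ.image (fam θ y' q), le_antisymm (Submodule.span_le.2 ?_) ?_⟩
      · intro x hx
        simp only [Finset.coe_image, Finset.coe_univ, Set.image_univ, Set.mem_range] at hx
        obtain ⟨o, rfl⟩ := hx
        exact hfam o
      · intro x hx
        obtain ⟨c, d, hc, hd, rfl⟩ := hexp x hx.1 hx.2
        have hmem : ∀ o, fam θ y' q o ∈ Submodule.span V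
            (↑(Finset.univ.image (fam θ y' q)) : Set L) := fun o =>
          Submodule.subset_span (by simp)
        rw [comb, Finset.sum_mul]
        refine Submodule.add_mem _ (Submodule.sum_mem _ fun i _ => ?_) ?_
        · have e : algebraMap K L (c i) * y' ^ (i : ℕ) * θ =
              (⟨c i, hc i⟩ : V) • fam θ y' q (some i) := by
            rw [Algebra.smul_def, mul_assoc]
            rfl
          rw [e]
          exact Submodule.smul_mem _ _ (hmem _)
        · have e : algebraMap K L d * (1 - θ) = (⟨d, hd⟩ : V) • fam θ y' q none := by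
            rw [Algebra.smul_def]
            rfl
          rw [e]
          exact Submodule.smul_mem _ _ (hmem _)
    exact IsIntegral.of_mem_of_fg S hFG g ⟨hg1, hg2⟩
  · -- `e(O₁ | V) = 1`
    intro g hg
    rw [ValuationSubring.mem_nonunits_iff] at hg
    obtain ⟨g', u, hg'u, hu, hgg, hg'2⟩ :=
      exists_adjust O₁ O₂ hθ1' hθ2u ((O₁.valuation_le_one_iff _).1 (le_of_lt hg))
    have hvg' : O₁.valuation g' = O₁.valuation g := by rw [hg'u, map_mul, hu, mul_one]
    have hg'1 : g' ∈ O₁ := (O₁.valuation_le_one_iff _).1 (by rw [hvg']; exact le_of_lt hg)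
    obtain ⟨c, d, hc, hd, hx⟩ := hexp g' hg'1 hg'2
    have hb := val_comb_sub_le h₁ (θ := θ) hy'1 c hc hd
    rw [← hx] at hb
    have hdn : d ∈ V.nonunits := by
      rw [← algebraMap_val_lt_one_iff h₁]
      have e : algebraMap K L d = g' - (g' - algebraMap K L d) := by ring
      rw [e]
      exact Valuation.map_sub_lt _ (by rw [hvg']; exact hg) (lt_of_le_of_lt hb hθ1')
    have hle : O₁.valuation g' ≤ O₁.valuation (algebraMap K L π) := by
      have e : g' = (g' - algebraMap K L d) + algebraMap K L d := by ring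
      rw [e]
      exact Valuation.map_add_le _ (le_trans hb hθ1) (hdivV d hdn O₁ h₁)
    rw [← O₁.valuation_le_one_iff, map_div₀, div_le_one₀ hpos1, ← hvg']
    exact hle
  · -- `e(O₂ | V) = 1`
    intro g hg
    rw [ValuationSubring.mem_nonunits_iff] at hg
    obtain ⟨g', u, hg'u, hu, hgg, hg'1⟩ :=
      exists_adjust O₂ O₁ he2 he1 ((O₂.valuation_le_one_iff _).1 (le_of_lt hg))
    have hvg' : O₂.valuation g' = O₂.valuation g := by rw [hg'u, map_mul, hu, mul_one]
    have hg'2 : g' ∈ O₂ := (O₂.valuation_le_one_iff _).1 (by rw [hvg']; exact le_of_lt hg)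
    obtain ⟨c, d, hc, hd, hx⟩ := hexp g' hg'1 hg'2
    have ha := val_comb_sub_lt_one h₂ hθ2' hy'2 hy hyy c hc hd
    rw [← hx] at ha
    have hcn : ∀ i, c i ∈ V.nonunits := by
      refine coeff_mem_nonunits_of_sum_mem h₂ hq hqV hy hv hyv hyn c hc ?_
      rw [ValuationSubring.mem_nonunits_iff]
      have e : ∑ i : Fin q, algebraMap K L (c i) * y ^ (i : ℕ) =
          g' - (g' - ∑ i : Fin q, algebraMap K L (c i) * y ^ (i : ℕ)) := by ring
      rw [e]
      exact Valuation.map_sub_lt _ (by rw [hvg']; exact hg) ha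
    have hle : O₂.valuation g' ≤ O₂.valuation (algebraMap K L π) := by
      rw [hx, comb]
      refine Valuation.map_add_le _ ?_ ?_
      · rw [map_mul, hθ2u, mul_one]
        refine Valuation.map_sum_le _ fun i _ => ?_
        rw [map_mul]
        calc O₂.valuation (algebraMap K L (c i)) * O₂.valuation (y' ^ (i : ℕ))
            ≤ O₂.valuation (algebraMap K L π) * 1 :=
              mul_le_mul' (hdivV (c i) (hcn i) O₂ h₂)
                ((O₂.valuation_le_one_iff _).2 (pow_mem hy'2 _))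
          _ = _ := mul_one _
      · rw [map_mul]
        calc O₂.valuation (algebraMap K L d) * O₂.valuation (1 - θ)
            ≤ 1 * O₂.valuation (algebraMap K L π) :=
              mul_le_mul' ((O₂.valuation_le_one_iff _).2 ((algebraMap_mem_iff h₂ _).2 hd))
                (by rw [Valuation.map_sub_swap]; exact hθ2)
          _ = _ := one_mul _
    rw [← O₂.valuation_le_one_iff, map_div₀, div_le_one₀ hpos2, ← hvg']
    exact hle
  · -- `f(O₁ | V) = 1`
    intro g hg
    obtain ⟨g', u, hg'u, hu, hgg, hg'2⟩ := exists_adjust O₁ O₂ hθ1' hθ2u hg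
    have hg'1 : g' ∈ O₁ := by
      rw [hg'u]
      exact O₁.mul_mem _ _ hg ((O₁.valuation_le_one_iff _).1 (le_of_eq hu))
    obtain ⟨c, d, hc, hd, hx⟩ := hexp g' hg'1 hg'2
    have hb := val_comb_sub_le h₁ (θ := θ) hy'1 c hc hd
    rw [← hx] at hb
    refine ⟨d, hd, ?_⟩
    rw [ValuationSubring.mem_nonunits_iff]
    have e : g - algebraMap K L d = (g' - algebraMap K L d) - (g' - g) := by ring
    rw [e]
    exact Valuation.map_sub_lt _ (lt_of_le_of_lt hb hθ1') hgg
  · -- `f(O₂ | V) = q`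
    intro g hg
    obtain ⟨g', u, hg'u, hu, hgg, hg'1⟩ := exists_adjust O₂ O₁ he2 he1 hg
    have hg'2 : g' ∈ O₂ := by
      rw [hg'u]
      exact O₂.mul_mem _ _ hg ((O₂.valuation_le_one_iff _).1 (le_of_eq hu))
    obtain ⟨c, d, hc, hd, hx⟩ := hexp g' hg'1 hg'2
    have ha := val_comb_sub_lt_one h₂ hθ2' hy'2 hy hyy c hc hd
    rw [← hx] at ha
    refine ⟨c, hc, ?_⟩
    rw [ValuationSubring.mem_nonunits_iff]
    have e : g - ∑ i : Fin q, algebraMap K L (c i) * y ^ (i : ℕ) =
        (g' - ∑ i : Fin q, algebraMap K L (c i) * y ^ (i : ℕ)) - (g' - g) := by ring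
    rw [e]
    exact Valuation.map_sub_lt _ ha hgg

end Final

section Statements

/-- **(res₂)** `f(O₂ | V) = q` in elementwise form, under the hypotheses of
`Fermat.Agent.S34.H64.TwoExtStatement`: every element of `O₂` is congruent modulo the maximal
ideal to a `V`-combination of `1, y, …, y^(q-1)`. -/
theorem twoExt_res2 (K : Type u) (L : Type v) [Field K] [Field L] [Algebra K L]
    [FiniteDimensional K L] (V : ValuationSubring K) [IsDiscreteValuationRing V] (q : ℕ)
    (hq : q.Prime) (hqV : (q : K) ∈ V.nonunits) (hfin : Module.finrank K L = q + 1)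
    (O₁ O₂ : ValuationSubring L) (h₁ : O₁.comap (algebraMap K L) = V)
    (h₂ : O₂.comap (algebraMap K L) = V) (hne : O₁ ≠ O₂) (y : L) (hy : y ∈ O₂)
    (hyq : ∃ v ∈ V, y ^ q - algebraMap K L v ∈ O₂.nonunits)
    (hyn : ∀ v ∈ V, y - algebraMap K L v ∉ O₂.nonunits) (g : L) (hg : g ∈ O₂) :
    ∃ c : Fin q → K, (∀ i, c i ∈ V) ∧
      g - ∑ i, algebraMap K L (c i) * y ^ (i : ℕ) ∈ O₂.nonunits := by
  obtain ⟨v, hv, hyv⟩ := hyq
  obtain ⟨π, hπ0, hπV, hπ⟩ := exists_uniformizer V
  exact (twoExt_of_uniformizer hq hqV hfin h₁ h₂ hne hy hv hyv hyn hπ0 hπV hπ).2.2.2.2 g hg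

/-- **The two-extension lemma** (second, elementary proof). -/
theorem twoExtStatement : Fermat.Agent.S34.H64.TwoExtStatement.{u, v} := by
  intro K L _ _ _ _ _ V _ q hq hqV hfin O₁ O₂ h₁ h₂ hne y hy hyq hyn
  obtain ⟨v, hv, hyv⟩ := hyq
  obtain ⟨π₀, hπ₀0, hπ₀V, hπ₀⟩ := exists_uniformizer V
  obtain ⟨hint, -, -, hres1, -⟩ :=
    twoExt_of_uniformizer hq hqV hfin h₁ h₂ hne hy hv hyv hyn hπ₀0 hπ₀V hπ₀
  refine ⟨?_, ?_, ?_, ?_, hres1⟩
  · -- only
    intro O' h'
    by_contra hcon
    push Not at hcon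
    obtain ⟨hne1, hne2⟩ := hcon
    obtain ⟨a₁, ha₁, ha₁'⟩ := exists_mem_not_mem h₁ h' (Ne.symm hne1)
    obtain ⟨a₂, ha₂, ha₂'⟩ := exists_mem_not_mem h₂ h' (Ne.symm hne2)
    have ha₁2 : a₁ ∉ O₂ := fun h => ha₁' (mem_of_isIntegral h' (hint a₁ ha₁ h))
    have ha₂1 : a₂ ∉ O₁ := fun h => ha₂' (mem_of_isIntegral h' (hint a₂ h ha₂))
    have ha₁0 : a₁ ≠ 0 := fun h => ha₁' (h ▸ O'.zero_mem)
    have ha₂0 : a₂ ≠ 0 := fun h => ha₂' (h ▸ O'.zero_mem)
    have inv_lt : ∀ (O : ValuationSubring L) (a : L), a ∉ O → O.valuation a⁻¹ < 1 := by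
      intro O a ha
      rw [← ValuationSubring.mem_nonunits_iff, ValuationSubring.inv_mem_nonunits_iff]
      exact Or.inr ha
    have one_le : ∀ (O : ValuationSubring L) (a : L), a ≠ 0 → a ∈ O → 1 ≤ O.valuation a⁻¹ := by
      intro O a ha0 ha
      rw [map_inv₀]
      exact (one_le_inv₀ (zero_lt_iff.2 ((Valuation.ne_zero_iff _).2 ha0))).2
        ((O.valuation_le_one_iff _).2 ha)
    have h11 : O₁.valuation (a₁⁻¹ + a₂⁻¹) = O₁.valuation a₁⁻¹ :=
      Valuation.map_add_eq_of_lt_left _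
        (lt_of_lt_of_le (inv_lt O₁ a₂ ha₂1) (one_le O₁ a₁ ha₁0 ha₁))
    have h22 : O₂.valuation (a₁⁻¹ + a₂⁻¹) = O₂.valuation a₂⁻¹ :=
      Valuation.map_add_eq_of_lt_right _
        (lt_of_lt_of_le (inv_lt O₂ a₁ ha₁2) (one_le O₂ a₂ ha₂0 ha₂))
    have hsum0 : a₁⁻¹ + a₂⁻¹ ≠ 0 := by
      intro h
      rw [h, map_zero] at h11
      exact (ne_of_gt (lt_of_lt_of_le zero_lt_one (one_le O₁ a₁ ha₁0 ha₁))) h11.symm
    have hx1 : (a₁⁻¹ + a₂⁻¹)⁻¹ ∈ O₁ := by
      rw [← O₁.valuation_le_one_iff, map_inv₀, h11, map_inv₀, inv_inv]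
      exact (O₁.valuation_le_one_iff _).2 ha₁
    have hx2 : (a₁⁻¹ + a₂⁻¹)⁻¹ ∈ O₂ := by
      rw [← O₂.valuation_le_one_iff, map_inv₀, h22, map_inv₀, inv_inv]
      exact (O₂.valuation_le_one_iff _).2 ha₂
    have hx' : (a₁⁻¹ + a₂⁻¹)⁻¹ ∈ O' := mem_of_isIntegral h' (hint _ hx1 hx2)
    have hlt : O'.valuation (a₁⁻¹ + a₂⁻¹) < 1 :=
      Valuation.map_add_lt _ (inv_lt O' a₁ ha₁') (inv_lt O' a₂ ha₂')
    have hmem : a₁⁻¹ + a₂⁻¹ ∈ O'.nonunits := (ValuationSubring.mem_nonunits_iff O').2 hlt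
    rw [ValuationSubring.mem_nonunits_iff_or] at hmem
    rcases hmem with h | h
    · exact hsum0 h
    · exact h hx'
  · -- integral_iff
    intro g
    exact ⟨fun hg => ⟨mem_of_isIntegral h₁ hg, mem_of_isIntegral h₂ hg⟩,
      fun hg => hint g hg.1 hg.2⟩
  · -- unif₁
    intro π hπV hπ g hg
    rcases eq_or_ne π 0 with rfl | hπ0
    · rw [map_zero, div_zero]
      exact O₁.zero_mem
    · exact (twoExt_of_uniformizer hq hqV hfin h₁ h₂ hne hy hv hyv hyn hπ0 hπV hπ).2.1 g hg
  · -- unif₂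
    intro π hπV hπ g hg
    rcases eq_or_ne π 0 with rfl | hπ0
    · rw [map_zero, div_zero]
      exact O₂.zero_mem
    · exact (twoExt_of_uniformizer hq hqV hfin h₁ h₂ hne hy hv hyv hyn hπ0 hπV hπ).2.2.1 g hg

end Statements

end Fermat.Agent.S34.H57
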